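/-
Two affine charts, the two term complex of a line system, and Euler characteristics.
-/
import Fermat.Agent.Jacobian.Line.Sections

set_option autoImplicit false
set_option linter.unusedVariables false

universe u

open CategoryTheory AlgebraicGeometry TopologicalSpace Opposite Polynomial

noncomputable section

namespace Fermat.Agent.Jacobian

variable {X T : Scheme.{u}}

/-- Functions on the base, seen on an open of `X`. -/
abbrev baseHom (p : X ⟶ T) (V : X.Opens) : Γ(T, ⊤) →+* Γ(X, V) :=
  (p.appLE ⊤ V (fun _ _ => trivial)).hom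

/-- Two affine charts with inverse coordinates `x`, `y`, free and finite over the coordinate
lines. -/
structure TwoChart (p : X ⟶ T) where
  U0 : X.Opens
  U1 : X.Opens
  isAffine0 : IsAffineOpen U0
  isAffine1 : IsAffineOpen U1
  cover : U0 ⊔ U1 = ⊤
  x : Γ(X, U0)
  y : Γ(X, U1)
  inter0 : U0 ⊓ U1 = X.basicOpen x
  inter1 : U0 ⊓ U1 = X.basicOpen y
  x_mul_y : res (inf_le_left : U0 ⊓ U1 ≤ U0) x * res inf_le_right y = 1
  free0 : ∃ (n : ℕ) (b : Fin n → Γ(X, U0)), Function.Bijective
    fun q : Fin n → Polynomial Γ(T, ⊤) => ∑ i, (q i).eval₂ (baseHom p U0) x * b i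
  free1 : ∃ (n : ℕ) (b : Fin n → Γ(X, U1)), Function.Bijective
    fun q : Fin n → Polynomial Γ(T, ⊤) => ∑ i, (q i).eval₂ (baseHom p U1) y * b i

/-- Sections, as a module over the functions on the base. -/
def SecOver (p : X ⟶ T) (L : LineSys X) (V : X.Opens) : Type u := L.Sec V

instance (p : X ⟶ T) (L : LineSys X) (V : X.Opens) : AddCommGroup (SecOver p L V) :=
  inferInstanceAs (AddCommGroup (L.Sec V))

instance (p : X ⟶ T) (L : LineSys X) (V : X.Opens) : Module Γ(T, ⊤) (SecOver p L V) :=
  Module.compHom (L.Sec V) (baseHom p V)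

/-- Restriction, linear over the base. -/
def secRes (p : X ⟶ T) (L : LineSys X) {V V' : X.Opens} (h : V' ≤ V) :
    SecOver p L V →ₗ[Γ(T, ⊤)] SecOver p L V' where
  toFun s := LineSys.Sec.restrict h s
  map_add' s t := LineSys.Sec.ext fun x W hW hx => rfl
  map_smul' r s := LineSys.Sec.ext fun x W hW hx => by
    show res (hW.trans h) (baseHom p V r) * LineSys.Sec.coord (L := L) s x W (hW.trans h) hx =
      res hW (baseHom p V' r) * LineSys.Sec.coord (L := L) s x W (hW.trans h) hx
    exact congrArg (· * _) ((res_appLE p _ _ r).trans (res_appLE p _ _ r).symm)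

/-- The differential of the two term complex. -/
def cechD (p : X ⟶ T) (L : LineSys X) (U0 U1 : X.Opens) :
    (SecOver p L U0 × SecOver p L U1) →ₗ[Γ(T, ⊤)] SecOver p L (U0 ⊓ U1) :=
  (secRes p L inf_le_left).coprod (-secRes p L inf_le_right)

/-- The cokernel of the two term complex. -/
abbrev CechH1 (p : X ⟶ T) (L : LineSys X) (U0 U1 : X.Opens) : Type u :=
  SecOver p L (U0 ⊓ U1) ⧸ LinearMap.range (cechD p L U0 U1)

/-- The dimension of the global sections (for a base that is the spectrum of a field). -/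
def h0 (p : X ⟶ T) (a : LinePic X) : ℕ := Module.finrank Γ(T, ⊤) (SecOver p a.out ⊤)

/-- The dimension of `H¹`. -/
def h1 (p : X ⟶ T) (U0 U1 : X.Opens) (a : LinePic X) : ℕ :=
  Module.finrank Γ(T, ⊤) (CechH1 p a.out U0 U1)

/-- The Euler characteristic. -/
def chi (p : X ⟶ T) (U0 U1 : X.Opens) (a : LinePic X) : ℤ := (h0 p a : ℤ) - h1 p U0 U1 a

end Fermat.Agent.Jacobian
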