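/-
Rigidified classes, the model of the curve, degree predicates, and the records that the pieces of
the construction of the Jacobian exchange.
-/
import Fermat.Agent.Jacobian.Core.Cech
import Fermat.Prelude.Def_AlgebraicGeometry_RelativePicardFunctor
import Fermat.Prelude.Def_JacJ1Iface

set_option autoImplicit false
set_option linter.unusedVariables false

universe u

open CategoryTheory CategoryTheory.Limits AlgebraicGeometry AlgebraicGeometry.RelPicard
  TopologicalSpace Opposite NeronModelInfra GoodReductionJacobian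

noncomputable section

namespace Fermat.Agent.Jacobian

/-- The dictionary between invertible sheaves of modules and `LinePic`. -/
structure ModulesBridge : Type (u + 1) where
  cls : ∀ {X : Scheme.{u}} (M : X.Modules), Scheme.Modules.IsInvertible M → LinePic X
  surj : ∀ {X : Scheme.{u}} (a : LinePic X), ∃ (M : X.Modules) (hM : Scheme.Modules.IsInvertible M),
    cls M hM = a
  cls_eq_iff : ∀ {X : Scheme.{u}} (M M' : X.Modules) (hM : Scheme.Modules.IsInvertible M)
    (hM' : Scheme.Modules.IsInvertible M'), cls M hM = cls M' hM' ↔ Nonempty (M ≅ M')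
  cls_unit : ∀ (X : Scheme.{u}),
    cls (SheafOfModules.unit X.ringCatSheaf) (Scheme.Modules.isInvertible_unit X) = 1
  cls_pullback : ∀ {X Y : Scheme.{u}} (f : X ⟶ Y) (M : Y.Modules)
    (hM : Scheme.Modules.IsInvertible M),
    cls ((Scheme.Modules.pullback f).obj M) (hM.pullback f) = LinePic.pullback f (cls M hM)

/-- An effective divisor with support a closed subscheme: a line system with a regular section
whose local equations generate the ideal of the subscheme. -/
structure LineDivisor {Z X : Scheme.{u}} (i : Z ⟶ X) where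
  L : LineSys X
  s : L.Sec ⊤
  regular : ∀ (x : X) (W : X.Opens) (hW : IsAffineOpen W) (hx : W ≤ L.U x),
    IsRegular (s.coord x W le_top hx)
  ker_eq : ∀ (x : X) (W : X.Opens) (hW : IsAffineOpen W) (hx : W ≤ L.U x),
    RingHom.ker (i.app W).hom = Ideal.span {s.coord x W le_top hx}

/-- The class of a divisor. -/
def LineDivisor.cls {Z X : Scheme.{u}} {i : Z ⟶ X} (D : LineDivisor i) : LinePic X :=
  LinePic.mk D.L

variable {k : Type u} [Field k] {C : Scheme.{u}}
variable (c : C ⟶ Spec (CommRingCat.of k)) (ε : SchemeHomOver (𝟙 (Spec (CommRingCat.of k))) c)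

/-- Restriction of a class along the rigidifying section. -/
def rigHom {T : Scheme.{u}} (t : T ⟶ Spec (CommRingCat.of k)) :
    LinePic (pullback c t) →* LinePic T :=
  LinePic.pullback (rigSection c t ε)

/-- Classes coming from the base. -/
def piHom {T : Scheme.{u}} (t : T ⟶ Spec (CommRingCat.of k)) :
    LinePic T →* LinePic (pullback c t) :=
  LinePic.pullback (pullback.snd c t)

/-- Normalisation along the section. -/
def rig {T : Scheme.{u}} (t : T ⟶ Spec (CommRingCat.of k)) :
    LinePic (pullback c t) →* LinePic (pullback c t) :=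
  MonoidHom.id _ / (piHom c t).comp (rigHom c ε t)

/-- Restriction along a morphism of bases. -/
def bcPic {T T' : Scheme.{u}} {t : T ⟶ Spec (CommRingCat.of k)}
    {t' : T' ⟶ Spec (CommRingCat.of k)} (ψ : SchemeHomOver t' t) :
    LinePic (pullback c t) →* LinePic (pullback c t') :=
  LinePic.pullback (baseChangeSnd c ψ)

/-- The fixed pair of charts of the curve: `U0` is the complement of the marked point. -/
structure CurveModel extends TwoChart c where
  mem_U0 : ∀ q : C, q ∈ U0 ↔ q ∉ Set.range ε.1

variable {c ε}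

/-- The two opens after base change. -/
abbrev CurveModel.V0 (M : CurveModel c ε) {T : Scheme.{u}} (t : T ⟶ Spec (CommRingCat.of k)) :
    (pullback c t).Opens :=
  pullback.fst c t ⁻¹ᵁ M.U0

/-- The two opens after base change. -/
abbrev CurveModel.V1 (M : CurveModel c ε) {T : Scheme.{u}} (t : T ⟶ Spec (CommRingCat.of k)) :
    (pullback c t).Opens :=
  pullback.fst c t ⁻¹ᵁ M.U1

/-- Euler characteristic of a class over a base which is the spectrum of a field. -/
def CurveModel.chiAt (M : CurveModel c ε) {T : Scheme.{u}} (t : T ⟶ Spec (CommRingCat.of k))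
    (a : LinePic (pullback c t)) : ℤ :=
  chi (pullback.snd c t) (M.V0 t) (M.V1 t) a

/-- `1 - g`. -/
def CurveModel.chiOne (M : CurveModel c ε) : ℤ :=
  M.chiAt (𝟙 (Spec (CommRingCat.of k))) 1

/-- The genus. -/
def CurveModel.genus (M : CurveModel c ε) : ℕ :=
  h1 (pullback.snd c (𝟙 (Spec (CommRingCat.of k)))) (M.V0 _) (M.V1 _) 1

/-- Degree `n` on every geometric fibre. -/
def CurveModel.IsDeg (M : CurveModel c ε) (n : ℤ) {T : Scheme.{u}}
    (t : T ⟶ Spec (CommRingCat.of k)) (a : LinePic (pullback c t)) : Prop :=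
  ∀ (K : Type u) [Field K] [IsAlgClosed K] (s : Spec (CommRingCat.of K) ⟶ T),
    M.chiAt (s ≫ t) (bcPic c (⟨s, rfl⟩ : SchemeHomOver (s ≫ t) t) a) = M.chiOne + n

variable (c)

/-- The map `C_T → C ×ₖ C` attached to a `T`-point of `C`. -/
def pointMap {T : Scheme.{u}} {t : T ⟶ Spec (CommRingCat.of k)} (σ : SchemeHomOver t c) :
    pullback c t ⟶ pullback c c :=
  pullback.lift (pullback.fst c t) (pullback.snd c t ≫ σ.1)
    (by rw [Category.assoc, σ.2, pullback.condition])

/-- A divisor on `C ×ₖ C` supported on the diagonal. -/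
abbrev DiagDivisor : Type u := LineDivisor (pullback.diagonal c)

variable {c}

/-- The class of a `T`-point of `C`. -/
def DiagDivisor.pointClass (D : DiagDivisor c) {T : Scheme.{u}}
    {t : T ⟶ Spec (CommRingCat.of k)} (σ : SchemeHomOver t c) : LinePic (pullback c t) :=
  LinePic.pullback (pointMap c σ) D.cls

variable (c ε)

/-- Functions on `C_T` come from `T`. -/
def GlobalUnits : Prop :=
  ∀ {T : Scheme.{u}} (t : T ⟶ Spec (CommRingCat.of k)),
    Function.Bijective ((pullback.snd c t).app ⊤).hom

/-- A predicate on classes over algebraically closed fields. -/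
abbrev GeomPred : Type (u + 1) :=
  ∀ (K : Type u) [Field K] [IsAlgClosed K] (t : Spec (CommRingCat.of K) ⟶ Spec (CommRingCat.of k)),
    LinePic (pullback c t) → Prop

/-- A predicate tested on all geometric fibres. -/
def OnFibres (Q : GeomPred c) {T : Scheme.{u}} (t : T ⟶ Spec (CommRingCat.of k))
    (a : LinePic (pullback c t)) : Prop :=
  ∀ (K : Type u) [Field K] [IsAlgClosed K] (s : Spec (CommRingCat.of K) ⟶ T),
    Q K (s ≫ t) (bcPic c (⟨s, rfl⟩ : SchemeHomOver (s ≫ t) t) a)

/-- A chart of the functor of rigidified classes. -/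
structure PicChart (Q : GeomPred c) where
  X : Scheme.{u}
  hom : X ⟶ Spec (CommRingCat.of k)
  cls : LinePic (pullback c hom)
  rig_cls : rigHom c ε hom cls = 1
  mem : OnFibres c Q hom cls
  inj : ∀ {T : Scheme.{u}} (t : T ⟶ Spec (CommRingCat.of k)) (g g' : SchemeHomOver t hom),
    bcPic c g cls = bcPic c g' cls → g = g'
  openImage : ∀ {T : Scheme.{u}} (t : T ⟶ Spec (CommRingCat.of k)) (a : LinePic (pullback c t)),
    rigHom c ε t a = 1 → OnFibres c Q t a →
    ∃ U : T.Opens, ∀ {T' : Scheme.{u}} (h : T' ⟶ T), Set.range h ⊆ (U : Set T) ↔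
      ∃ g : SchemeHomOver (h ≫ t) hom,
        bcPic c g cls = bcPic c (⟨h, rfl⟩ : SchemeHomOver (h ≫ t) t) a

/-- A jointly surjective family of charts. -/
def PicChartsCover {Q : GeomPred c} {ι : Type u} (ch : ι → PicChart c ε Q) : Prop :=
  ∀ (K : Type u) [Field K] [IsAlgClosed K] (t : Spec (CommRingCat.of K) ⟶ Spec (CommRingCat.of k))
    (a : LinePic (pullback c t)), rigHom c ε t a = 1 → Q K t a →
    ∃ (i : ι) (g : SchemeHomOver t (ch i).hom), bcPic c g (ch i).cls = a

/-- A universal rigidified class. -/
structure UnivPic (Q : GeomPred c) where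
  D : RelativePic0Designation k c
  cls : LinePic (pullback c D.toBase)
  rig_cls : rigHom c ε D.toBase cls = 1
  mem : OnFibres c Q D.toBase cls
  univ : ∀ {T : Scheme.{u}} (t : T ⟶ Spec (CommRingCat.of k)) (a : LinePic (pullback c t)),
    rigHom c ε t a = 1 → OnFibres c Q t a →
    ∃! g : SchemeHomOver t D.toBase, bcPic c g cls = a
  zero : bcPic c (⟨D.zeroSection, D.zeroSection_toBase⟩ :
    SchemeHomOver (𝟙 (Spec (CommRingCat.of k))) D.toBase) cls = 1

variable {c ε}

/-- Degree zero. -/
def CurveModel.deg0 (M : CurveModel c ε) : GeomPred c :=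
  fun K _ _ t a => M.chiAt t a = M.chiOne

end Fermat.Agent.Jacobian
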