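/-
Ideals of finite colength with a given basis of the quotient.
-/
import Mathlib

set_option autoImplicit false

universe u

open TensorProduct

noncomputable section

namespace Fermat.Agent.Jacobian

variable {k : Type u} [Field k] {R : Type u} [CommRing R] [Algebra k R] {g : ℕ}

/-- `E` gives a basis of `(B ⊗ R) ⧸ J` over `B`. -/
def IsHilb (E : Fin g → R) {B : Type u} [CommRing B] [Algebra k B] (J : Ideal (B ⊗[k] R)) : Prop :=
  Function.Bijective fun v : Fin g → B => Ideal.Quotient.mk J (∑ i, v i ⊗ₜ[k] E i)

/-- Locally generated by one regular element. -/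
def LocPrincipalRegular {A : Type u} [CommRing A] (J : Ideal A) : Prop :=
  ∀ (q : Ideal A), q.IsPrime → ∃ h ∉ q, ∃ f ∈ nonZeroDivisors (Localization.Away h),
    J.map (algebraMap A (Localization.Away h)) = Ideal.span {f}

/-- The universal such ideal. -/
structure HilbRing (E : Fin g → R) where
  H : Type u
  [commRing : CommRing H]
  [algebra : Algebra k H]
  I : Ideal (H ⊗[k] R)
  isHilb : IsHilb E I
  univ : ∀ (B : Type u) [CommRing B] [Algebra k B] (J : Ideal (B ⊗[k] R)), IsHilb E J →
    ∃! φ : H →ₐ[k] B, I.map (Algebra.TensorProduct.map φ (AlgHom.id k R)) = J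

attribute [instance] HilbRing.commRing HilbRing.algebra

end Fermat.Agent.Jacobian
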