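/-
Over an affine base, the inverse image of an affine open of the curve is affine, with ring the
tensor product.
-/
import Fermat.Agent.Jacobian.Core.Defs

set_option autoImplicit false
set_option linter.unusedVariables false

universe u

open CategoryTheory CategoryTheory.Limits AlgebraicGeometry AlgebraicGeometry.RelPicard
  TopologicalSpace Opposite TensorProduct

noncomputable section

namespace Fermat.Agent.Jacobian

variable {k : Type u} [Field k]

/-- Scalars on the spectrum of `k`. -/
def kHom (k : Type u) [Field k] : k →+* Γ(Spec (CommRingCat.of k), ⊤) :=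
  (Scheme.ΓSpecIso (CommRingCat.of k)).inv.hom

theorem kHom_bijective : Function.Bijective (kHom k) :=
  (Scheme.ΓSpecIso (CommRingCat.of k)).symm.commRingCatIsoToRingEquiv.bijective

/-- The `k`-algebra of functions on an open of a `k`-scheme. -/
@[reducible]
def openAlgebra {X : Scheme.{u}} (p : X ⟶ Spec (CommRingCat.of k)) (U : X.Opens) :
    Algebra k Γ(X, U) :=
  ((baseHom p U).comp (kHom k)).toAlgebra

variable {C T : Scheme.{u}} (c : C ⟶ Spec (CommRingCat.of k))
  (t : T ⟶ Spec (CommRingCat.of k))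

theorem isAffineOpen_fst_preimage [IsAffine T] {U : C.Opens} (hU : IsAffineOpen U) :
    IsAffineOpen (pullback.fst c t ⁻¹ᵁ U) :=
  haveI : IsAffineHom t := isAffineHom_of_isAffine t
  haveI : IsAffineHom (pullback.fst c t) :=
    MorphismProperty.of_isPullback (P := @IsAffineHom.{u})
      (IsPullback.of_hasPullback c t).flip ‹_›
  hU.preimage _

theorem isPushout_chart [IsAffine T] {U : C.Opens} (hU : IsAffineOpen U) :
    IsPushout
      (CommRingCat.ofHom ((baseHom c U).comp (kHom k)))
      (CommRingCat.ofHom ((baseHom t ⊤).comp (kHom k)))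
      ((pullback.fst c t).appLE U (pullback.fst c t ⁻¹ᵁ U) le_rfl)
      ((pullback.snd c t).appLE ⊤ (pullback.fst c t ⁻¹ᵁ U) (fun _ _ => trivial)) := by
  have H : IsPullback (pullback.fst c t) (pullback.snd c t) c t := IsPullback.of_hasPullback c t
  have hUY : pullback.fst c t ⁻¹ᵁ U = pullback.fst c t ⁻¹ᵁ U ⊓ pullback.snd c t ⁻¹ᵁ ⊤ :=
    (inf_eq_left.mpr fun _ _ => trivial).symm
  have := isIso_pushoutSection_of_isAffineOpen (US := ⊤) (UT := ⊤) (UX := U) H
    (fun _ _ => trivial) (fun _ _ => trivial) hUY (isAffineOpen_top _) (isAffineOpen_top _) hU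
  have h2 := (isIso_pushoutSection_iff (US := ⊤) (UT := ⊤) (UX := U) H
    (fun _ _ => trivial) (fun _ _ => trivial) hUY).mp this
  exact h2.of_iso (Scheme.ΓSpecIso (CommRingCat.of k)) (Iso.refl _) (Iso.refl _) (Iso.refl _)
    (by
      ext a
      simp only [CommRingCat.hom_comp, CommRingCat.hom_ofHom, RingHom.coe_comp,
        Function.comp_apply, Iso.refl_hom, CommRingCat.hom_id, RingHom.id_apply]
      show (baseHom c U) a = (baseHom c U) ((Scheme.ΓSpecIso (CommRingCat.of k)).inv
        ((Scheme.ΓSpecIso (CommRingCat.of k)).hom a))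
      exact congrArg _ ((Scheme.ΓSpecIso (CommRingCat.of k)).hom_inv_id_apply a).symm)
    (by
      ext a
      simp only [CommRingCat.hom_comp, CommRingCat.hom_ofHom, RingHom.coe_comp,
        Function.comp_apply, Iso.refl_hom, CommRingCat.hom_id, RingHom.id_apply]
      show (baseHom t ⊤) a = (baseHom t ⊤) ((Scheme.ΓSpecIso (CommRingCat.of k)).inv
        ((Scheme.ΓSpecIso (CommRingCat.of k)).hom a))
      exact congrArg _ ((Scheme.ΓSpecIso (CommRingCat.of k)).hom_inv_id_apply a).symm)
    (by simp) (by simp)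

/-- The comparison map from the tensor product. -/
def chartMap (U : C.Opens) :
    letI := openAlgebra c U
    letI := openAlgebra t ⊤
    Γ(T, ⊤) ⊗[k] Γ(C, U) →+* Γ(pullback c t, pullback.fst c t ⁻¹ᵁ U) :=
  letI := openAlgebra c U
  letI := openAlgebra t ⊤
  letI : Algebra k Γ(pullback c t, pullback.fst c t ⁻¹ᵁ U) :=
    ((baseHom (pullback.snd c t) (pullback.fst c t ⁻¹ᵁ U)).comp (algebraMap k Γ(T, ⊤))).toAlgebra
  (Algebra.TensorProduct.lift
    (⟨baseHom (pullback.snd c t) (pullback.fst c t ⁻¹ᵁ U), fun r => rfl⟩ : Γ(T, ⊤) →ₐ[k] _)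
    (⟨((pullback.fst c t).appLE U (pullback.fst c t ⁻¹ᵁ U) le_rfl).hom, fun r => by
        show (pullback.fst c t).appLE U _ le_rfl (baseHom c U (kHom k r)) =
          baseHom (pullback.snd c t) _ (baseHom t ⊤ (kHom k r))
        refine (ConcreteCategory.comp_apply _ _ _).symm.trans (Eq.trans ?_
          (ConcreteCategory.comp_apply _ _ _))
        have key : ∀ {f g : Γ(Spec (CommRingCat.of k), ⊤) ⟶
            Γ(pullback c t, pullback.fst c t ⁻¹ᵁ U)}, f = g → f (kHom k r) = g (kHom k r) :=
          fun h => by rw [h]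
        refine key ((Scheme.Hom.appLE_comp_appLE _ _ _ _ _ _ _).trans (Eq.trans ?_
          (Scheme.Hom.appLE_comp_appLE _ _ _ _ _ _ _).symm))
        simp only [pullback.condition]⟩ : Γ(C, U) →ₐ[k] _)
    (fun _ _ => Commute.all _ _)).toRingHom

theorem chartMap_tmul (U : C.Opens) (b : Γ(T, ⊤)) (r : Γ(C, U)) :
    letI := openAlgebra c U
    letI := openAlgebra t ⊤
    chartMap c t U (b ⊗ₜ[k] r) = baseHom (pullback.snd c t) (pullback.fst c t ⁻¹ᵁ U) b *
      (pullback.fst c t).appLE U (pullback.fst c t ⁻¹ᵁ U) le_rfl r := by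
  simp [chartMap]

theorem chartMap_bijective [IsAffine T] {U : C.Opens} (hU : IsAffineOpen U) :
    Function.Bijective (chartMap c t U) := by
  letI := openAlgebra c U
  letI := openAlgebra t ⊤
  let h1 := (CommRingCat.isPushout_tensorProduct k Γ(T, ⊤) Γ(C, U)).flip
  let e := h1.isoIsPushout _ _ (isPushout_chart c t hU)
  have : (chartMap c t U) = e.hom.hom := by
    refine Algebra.TensorProduct.ringHom_ext (RingHom.ext fun b => ?_) (RingHom.ext fun r => ?_)
    · show chartMap c t U (b ⊗ₜ[k] (1 : Γ(C, U))) = _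
      rw [chartMap_tmul, map_one, mul_one]
      exact (congr($(IsPushout.inr_isoIsPushout_hom _ _ h1 (isPushout_chart c t hU)).hom b)).symm
    · show chartMap c t U ((1 : Γ(T, ⊤)) ⊗ₜ[k] r) = _
      rw [chartMap_tmul, map_one, one_mul]
      exact (congr($(IsPushout.inl_isoIsPushout_hom _ _ h1 (isPushout_chart c t hU)).hom r)).symm
  rw [this]
  exact e.commRingCatIsoToRingEquiv.bijective

/-- The ring of the chart over an affine base. -/
def chartEquiv [IsAffine T] {U : C.Opens} (hU : IsAffineOpen U) :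
    letI := openAlgebra c U
    letI := openAlgebra t ⊤
    Γ(T, ⊤) ⊗[k] Γ(C, U) ≃+* Γ(pullback c t, pullback.fst c t ⁻¹ᵁ U) :=
  letI := openAlgebra c U
  letI := openAlgebra t ⊤
  RingEquiv.ofBijective (chartMap c t U) (chartMap_bijective c t hU)

end Fermat.Agent.Jacobian
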