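/-
The interfaces between the pieces of the construction of the Jacobian (S25). Each `Prop` below is
proved in the directory of its piece.
-/
import Fermat.Agent.Jacobian.Core.Defs
import Fermat.Agent.Jacobian.Core.Hilb
import Fermat.Prelude.Def_AlgebraicGeometry_RepresentsRelSubPic
import Fermat.Prelude.Def_AlgebraicGeometry_RelPicardAlgEquivZeroCut

set_option autoImplicit false
set_option linter.unusedVariables false

universe u

open CategoryTheory CategoryTheory.Limits AlgebraicGeometry AlgebraicGeometry.RelPicard
  TopologicalSpace Opposite NeronModelInfra GoodReductionJacobian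

noncomputable section

namespace Fermat.Agent.Jacobian

variable {k : Type u} [Field k] {C : Scheme.{u}}

/-- A `k`-point seen over `T`. -/
def constPt {c : C ⟶ Spec (CommRingCat.of k)} {T : Scheme.{u}}
    (t : T ⟶ Spec (CommRingCat.of k))
    (P : SchemeHomOver (𝟙 (Spec (CommRingCat.of k))) c) : SchemeHomOver t c :=
  ⟨t ≫ P.1, by rw [Category.assoc, P.2, Category.comp_id]⟩

/-- The product of the classes of a list of points. -/
def DiagDivisor.listClass {c : C ⟶ Spec (CommRingCat.of k)} (D : DiagDivisor c) {T : Scheme.{u}}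
    {t : T ⟶ Spec (CommRingCat.of k)} (P : List (SchemeHomOver t c)) : LinePic (pullback c t) :=
  (P.map D.pointClass).prod

variable (c : C ⟶ Spec (CommRingCat.of k)) (ε : SchemeHomOver (𝟙 (Spec (CommRingCat.of k))) c)

/-- C: the divisors attached to points over fields, and to constant points over any base. -/
def PointDivisorProperty (D : DiagDivisor c) : Prop :=
  (∀ (K : Type u) [Field K] [IsAlgClosed K]
      (t : Spec (CommRingCat.of K) ⟶ Spec (CommRingCat.of k)) (σ : SchemeHomOver t c),
      ∃ E : LineDivisor (pullback.lift σ.1 (𝟙 _) (by rw [σ.2, Category.id_comp]) :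
        Spec (CommRingCat.of K) ⟶ pullback c t), E.cls = D.pointClass σ) ∧
  ∀ {T : Scheme.{u}} (t : T ⟶ Spec (CommRingCat.of k))
      (P : SchemeHomOver (𝟙 (Spec (CommRingCat.of k))) c),
      ∃ E : LineDivisor (rigSection c t P), E.cls = D.pointClass (constPt t P)

/-- C: basic properties of the curve and of its affine open sets. -/
def CurveBasicsProperty : Prop :=
  GeometricallyIntegral c ∧ ∀ (U : C.Opens), IsAffineOpen U → (U : Set C).Nonempty →
    IsDedekindDomain Γ(C, U) ∧ ¬ IsField Γ(C, U)

/-- C: the fixed charts and the diagonal divisor exist. -/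
def CurveModelProperty : Prop :=
  Nonempty (CurveModel c ε) ∧ Nonempty (DiagDivisor c)

variable {c ε}

/-- D: on every family, the Euler characteristic of the fibres is a locally constant function
of the point. -/
def CurveModel.ChiLocConstProperty (M : CurveModel c ε) : Prop :=
  ∀ {T : Scheme.{u}} (t : T ⟶ Spec (CommRingCat.of k)) (a : LinePic (pullback c t)),
    ∃ f : T → ℤ, IsLocallyConstant f ∧
      ∀ (K : Type u) [Field K] (s : Spec (CommRingCat.of K) ⟶ T),
        M.chiAt (s ≫ t) (bcPic c (⟨s, rfl⟩ : SchemeHomOver (s ≫ t) t) a) =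
          f (s (IsLocalRing.closedPoint K))

/-- D: invariants of the trivial class. -/
def CurveModel.UnitClassProperty (M : CurveModel c ε) : Prop :=
  M.chiOne = 1 - M.genus ∧
    ∀ (K : Type u) [Field K] (t : Spec (CommRingCat.of K) ⟶ Spec (CommRingCat.of k)),
      M.chiAt t 1 = M.chiOne ∧ h0 (pullback.snd c t) (1 : LinePic (pullback c t)) = 1

/-- E: the numerical theory of classes over algebraically closed fields. -/
structure CurveModel.FieldTheory (M : CurveModel c ε) (D : DiagDivisor c) : Prop where
  chi_point : ∀ (K : Type u) [Field K] [IsAlgClosed K]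
    (t : Spec (CommRingCat.of K) ⟶ Spec (CommRingCat.of k)) (a : LinePic (pullback c t))
    (σ : SchemeHomOver t c), M.chiAt t (a * D.pointClass σ) = M.chiAt t a + 1
  chi_mul : ∀ (K : Type u) [Field K] [IsAlgClosed K]
    (t : Spec (CommRingCat.of K) ⟶ Spec (CommRingCat.of k)) (a b : LinePic (pullback c t)),
    M.chiAt t (a * b) = M.chiAt t a + M.chiAt t b - M.chiOne
  exists_points : ∀ (K : Type u) [Field K] [IsAlgClosed K]
    (t : Spec (CommRingCat.of K) ⟶ Spec (CommRingCat.of k)) (a : LinePic (pullback c t)),
    ∃ P Q : List (SchemeHomOver t c), a = D.listClass P / D.listClass Q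
  effective : ∀ (K : Type u) [Field K] [IsAlgClosed K]
    (t : Spec (CommRingCat.of K) ⟶ Spec (CommRingCat.of k)) (a : LinePic (pullback c t)),
    0 < h0 (pullback.snd c t) a → ∃ P : List (SchemeHomOver t c),
      a = D.listClass P ∧ M.chiAt t a = M.chiOne + P.length
  translate : ∀ (K : Type u) [Field K] [IsAlgClosed K]
    (t : Spec (CommRingCat.of K) ⟶ Spec (CommRingCat.of k)) (a : LinePic (pullback c t)),
    M.chiAt t a = M.chiOne → ∃ P Q : List (SchemeHomOver (𝟙 (Spec (CommRingCat.of k))) c),
      P.length = Q.length ∧ h1 (pullback.snd c t) (M.V0 t) (M.V1 t)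
        (a * (D.listClass (P.map (constPt t)) / D.listClass (Q.map (constPt t))) *
          D.pointClass (constPt t ε) ^ ((M.genus : ℤ) - 1)) = 0

/-- G: the charts. -/
def CurveModel.ChartsProperty (M : CurveModel c ε) : Prop :=
  ∃ (ι : Type u) (ch : ι → PicChart c ε M.deg0),
    (∀ i, Smooth (ch i).hom) ∧ PicChartsCover c ε ch

/-- H: the chart rings. -/
def HilbProperty (k : Type u) [Field k] : Prop :=
  ∀ [IsAlgClosed k] (R : Type u) [CommRing R] [Algebra k R] [IsDedekindDomain R]
    [Algebra.FiniteType k R] (hR : ¬ IsField R) (g : ℕ) (E : Fin g → R), ∃ HR : HilbRing (k := k) E,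
      Algebra.FinitePresentation k HR.H ∧ Algebra.FormallySmooth k HR.H ∧
        ∀ (B : Type u) [CommRing B] [Algebra k B] (J : Ideal (TensorProduct k B R)),
          IsHilb E J → LocPrincipalRegular J

variable (c ε)

/-- F: gluing of the charts. -/
def GlueProperty : Prop :=
  GlobalUnits c → ∀ (Q : GeomPred c) (ι : Type u) (ch : ι → PicChart c ε Q),
    PicChartsCover c ε ch →
    (∀ (K : Type u) [Field K] [IsAlgClosed K]
      (t : Spec (CommRingCat.of K) ⟶ Spec (CommRingCat.of k)), Q K t 1) →
    Nonempty (UnivPic c ε Q)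

/-- F: from a universal class to the representability of the cut functor. -/
def RepresentsProperty (B : ModulesBridge.{u}) : Prop :=
  GlobalUnits c → ∀ (Q : GeomPred c) (U : UnivPic c ε Q),
    (∀ {T : Scheme.{u}} (t : T ⟶ Spec (CommRingCat.of k)) (L : RigidifiedLineBundle c ε t),
      FibrewiseAlgEquivZero L ↔ OnFibres c Q t (B.cls L.L L.isInvertible)) →
    Nonempty (RepresentsRelSubPic c ε (algEquivZeroCut c ε) U.D)

variable {c ε}

/-- P: the cut is the degree zero condition. -/
def CurveModel.CutProperty (M : CurveModel c ε) (B : ModulesBridge.{u}) : Prop :=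
  ∀ {T : Scheme.{u}} (t : T ⟶ Spec (CommRingCat.of k)) (L : RigidifiedLineBundle c ε t),
    FibrewiseAlgEquivZero L ↔ OnFibres c M.deg0 t (B.cls L.L L.isInvertible)

/-- P: the properties of the representing scheme. -/
def CurveModel.JacobianPropsProperty (M : CurveModel c ε) : Prop :=
  ∀ U : UnivPic c ε M.deg0,
    Smooth U.D.toBase ∧ IsProper U.D.toBase ∧ GeometricallyConnected U.D.toBase

/-- The final assembly. -/
theorem assemble (B : ModulesBridge.{u}) (M : CurveModel c ε) (hu : GlobalUnits c)
    (hone : M.UnitClassProperty) (hch : M.ChartsProperty) (hglue : GlueProperty c ε)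
    (hrep : RepresentsProperty c ε B) (hcut : M.CutProperty B)
    (hprops : M.JacobianPropsProperty) :
    ∃ D : RelativePic0Designation k c,
      Nonempty (RepresentsRelSubPic c ε (algEquivZeroCut c ε) D) ∧
        Smooth D.toBase ∧ IsProper D.toBase ∧ GeometricallyConnected D.toBase := by
  obtain ⟨ι, ch, -, hcov⟩ := hch
  obtain ⟨U⟩ := hglue hu M.deg0 ι ch hcov fun K _ _ t => (hone.2 K t).1
  exact ⟨U.D, hrep hu M.deg0 U hcut, hprops U⟩

end Fermat.Agent.Jacobian
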